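import Mathlib

/-!
# Row LT, tower T7, asset ARCH-PROJ (helper175), part 1: the PERIOD BASIS

OFF-MAIN.  Mathlib only.

`V = (InfinitePlace K → ℝ)` is the logarithmic space of the positive scalars at the infinite
places.  For `c ≠ 0` and `N ≥ 1` the constant vector `(c, …, c)` and the vectors
`(N · log |ε_j|_w)_w`, `ε_j` a fundamental system of units, form an `ℝ`-basis of `V`
(Dirichlet's unit theorem: `NumberField.Units.dirichletUnitTheorem`).  So the lattice spanned by
the ray generator and by the units `≡ 1 mod 𝔫` is cocompact in `V`.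
-/

set_option autoImplicit false
set_option linter.unusedSectionVars false

open NumberField NumberField.Units NumberField.Units.dirichletUnitTheorem
  NumberField.InfinitePlace Module
open scoped Classical

noncomputable section

namespace Fermat.Agent.LT.T7.H175

variable (K : Type) [Field K] [NumberField K]

/-- The logarithmic vector `(log |ε|_w)_w` of a unit. -/
def unitLog175 (ε : (𝓞 K)ˣ) : InfinitePlace K → ℝ := fun w => Real.log (w ((ε : 𝓞 K) : K))

/-- The projection of `V` on the logarithmic space of Mathlib. -/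
def logProj175 : (InfinitePlace K → ℝ) →ₗ[ℝ] logSpace K where
  toFun x := fun w => (mult w.1 : ℝ) * x w.1
  map_add' x y := by funext w; simp [mul_add]
  map_smul' a x := by funext w; simp [mul_left_comm]

/-- The weighted sum `∑ mult w · x_w`. -/
def logSum175 : (InfinitePlace K → ℝ) →ₗ[ℝ] ℝ where
  toFun x := ∑ w : InfinitePlace K, (mult w : ℝ) * x w
  map_add' x y := by simp [mul_add, Finset.sum_add_distrib]
  map_smul' a x := by simp [Finset.mul_sum, mul_left_comm]

theorem logProj175_unitLog (ε : (𝓞 K)ˣ) :
    logProj175 K (unitLog175 K ε) = logEmbedding K (Additive.ofMul ε) := rfl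

theorem logSum175_unitLog (ε : (𝓞 K)ˣ) : logSum175 K (unitLog175 K ε) = 0 :=
  sum_mult_mul_log ε

/-- The family: the constant vector and the scaled logarithmic vectors of a fundamental system
of units. -/
def periodVec175 (c : ℝ) (N : ℕ) : Option (Fin (rank K)) → (InfinitePlace K → ℝ)
  | none => fun _ => c
  | some j => (N : ℝ) • unitLog175 K (fundSystem K j)

theorem mult_ne_zero175 (w : InfinitePlace K) : (mult w : ℝ) ≠ 0 := by
  have : 0 < mult w := mult_pos
  exact_mod_cast this.ne'

/-- Every vector agrees outside `w₀` with a combination of the logarithmic vectors of the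
fundamental units. -/
theorem exists_agree175 (x : InfinitePlace K → ℝ) :
    ∃ z ∈ Submodule.span ℝ (Set.range fun j => unitLog175 K (fundSystem K j)),
      ∀ w : InfinitePlace K, w ≠ w₀ → z w = x w := by
  classical
  let B : Basis (Fin (rank K)) ℝ (logSpace K) :=
    (basisUnitLattice K).ofZLatticeBasis ℝ (unitLattice K)
  have hB : ∀ j, B j = logProj175 K (unitLog175 K (fundSystem K j)) := by
    intro j
    rw [logProj175_unitLog, logEmbedding_fundSystem]
    exact (basisUnitLattice K).ofZLatticeBasis_apply ℝ (unitLattice K) j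
  refine ⟨∑ j, B.repr (logProj175 K x) j • unitLog175 K (fundSystem K j), ?_, ?_⟩
  · refine Submodule.sum_mem _ fun j _ => Submodule.smul_mem _ _ ?_
    exact Submodule.subset_span ⟨j, rfl⟩
  · intro w hw
    have h1 : logProj175 K (∑ j, B.repr (logProj175 K x) j • unitLog175 K (fundSystem K j))
        = logProj175 K x := by
      rw [map_sum]
      simp only [map_smul, ← hB]
      exact B.sum_repr _
    have h2 := congrFun h1 ⟨w, hw⟩
    simp only [logProj175, LinearMap.coe_mk, AddHom.coe_mk] at h2
    exact mul_left_cancel₀ (mult_ne_zero175 K w) h2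

theorem logSum175_span {z : InfinitePlace K → ℝ}
    (hz : z ∈ Submodule.span ℝ (Set.range fun j => unitLog175 K (fundSystem K j))) :
    logSum175 K z = 0 := by
  induction hz using Submodule.span_induction with
  | mem x hx =>
    obtain ⟨j, rfl⟩ := hx
    exact logSum175_unitLog K _
  | zero => exact map_zero _
  | add x y _ _ hx hy => rw [map_add, hx, hy, add_zero]
  | smul a x _ hx => rw [map_smul, hx, smul_zero]

theorem span_unit_le175 (c : ℝ) {N : ℕ} (hN : 0 < N) :
    Submodule.span ℝ (Set.range fun j => unitLog175 K (fundSystem K j))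
      ≤ Submodule.span ℝ (Set.range (periodVec175 K c N)) := by
  rw [Submodule.span_le]
  rintro _ ⟨j, rfl⟩
  have hN' : (N : ℝ) ≠ 0 := by exact_mod_cast hN.ne'
  have h1 : periodVec175 K c N (some j) ∈ Submodule.span ℝ (Set.range (periodVec175 K c N)) :=
    Submodule.subset_span ⟨some j, rfl⟩
  have h2 := Submodule.smul_mem _ ((N : ℝ)⁻¹) h1
  have h3 : ((N : ℝ)⁻¹) • periodVec175 K c N (some j) = unitLog175 K (fundSystem K j) := by
    show ((N : ℝ)⁻¹) • ((N : ℝ) • unitLog175 K (fundSystem K j)) = _
    rw [smul_smul, inv_mul_cancel₀ hN', one_smul]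
  rw [h3] at h2
  exact h2

theorem logSum175_single (t : ℝ) :
    logSum175 K (Pi.single (w₀ : InfinitePlace K) t) = (mult (w₀ : InfinitePlace K) : ℝ) * t := by
  classical
  show ∑ w : InfinitePlace K, (mult w : ℝ) * (Pi.single (w₀ : InfinitePlace K) t : _ → ℝ) w = _
  rw [Finset.sum_eq_single (w₀ : InfinitePlace K)]
  · rw [Pi.single_eq_same]
  · intro w _ hw
    rw [Pi.single_eq_of_ne hw, mul_zero]
  · intro h
    exact absurd (Finset.mem_univ _) h

theorem eq_single_of_agree175 {y : InfinitePlace K → ℝ}
    (hy : ∀ w : InfinitePlace K, w ≠ w₀ → y w = 0) :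
    y = Pi.single (w₀ : InfinitePlace K) (y w₀) := by
  classical
  funext w
  by_cases hw : w = w₀
  · subst hw
    rw [Pi.single_eq_same]
  · rw [Pi.single_eq_of_ne hw, hy w hw]

/-- **The period vectors span `V`.** -/
theorem span_periodVec175 {c : ℝ} (hc : c ≠ 0) {N : ℕ} (hN : 0 < N) :
    Submodule.span ℝ (Set.range (periodVec175 K c N)) = ⊤ := by
  classical
  set W := Submodule.span ℝ (Set.range (periodVec175 K c N)) with hW
  -- the basis vector at `w₀` lies in `W`
  have hsingle : (Pi.single (w₀ : InfinitePlace K) (1 : ℝ) : InfinitePlace K → ℝ) ∈ W := by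
    obtain ⟨z, hz, hzw⟩ := exists_agree175 K (fun _ => c)
    have hρ : (fun _ : InfinitePlace K => c) ∈ W := Submodule.subset_span ⟨none, rfl⟩
    have hzW : z ∈ W := span_unit_le175 K c hN hz
    have hd : (fun _ : InfinitePlace K => c) - z ∈ W := Submodule.sub_mem _ hρ hzW
    have hd0 : ∀ w : InfinitePlace K, w ≠ w₀ → ((fun _ : InfinitePlace K => c) - z) w = 0 := by
      intro w hw
      show c - z w = 0
      rw [hzw w hw, sub_self]
    have hd1 := eq_single_of_agree175 K hd0
    set t := ((fun _ : InfinitePlace K => c) - z) w₀ with ht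
    have hS : logSum175 K ((fun _ : InfinitePlace K => c) - z)
        = c * ∑ w : InfinitePlace K, (mult w : ℝ) := by
      rw [map_sub, logSum175_span K hz, sub_zero]
      show ∑ w : InfinitePlace K, (mult w : ℝ) * c = _
      rw [Finset.mul_sum]
      exact Finset.sum_congr rfl fun w _ => mul_comm _ _
    have hS2 : logSum175 K ((fun _ : InfinitePlace K => c) - z)
        = (mult (w₀ : InfinitePlace K) : ℝ) * t := by
      conv_lhs => rw [hd1]
      exact logSum175_single K t
    have hpos : 0 < ∑ w : InfinitePlace K, (mult w : ℝ) := by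
      refine Finset.sum_pos (fun w _ => ?_) Finset.univ_nonempty
      have : 0 < mult w := mult_pos
      exact_mod_cast this
    have ht0 : t ≠ 0 := by
      intro h0
      rw [h0, mul_zero] at hS2
      rw [hS2] at hS
      exact (mul_ne_zero hc hpos.ne') hS.symm
    have h5 := Submodule.smul_mem W t⁻¹ hd
    rw [hd1] at h5
    have h6 : t⁻¹ • (Pi.single (w₀ : InfinitePlace K) t : InfinitePlace K → ℝ)
        = Pi.single (w₀ : InfinitePlace K) (1 : ℝ) := by
      funext w
      by_cases hw : w = w₀
      · subst hw
        simp [ht0]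
      · simp [Pi.single_eq_of_ne hw]
    rw [h6] at h5
    exact h5
  rw [eq_top_iff]
  intro x _
  obtain ⟨z, hz, hzw⟩ := exists_agree175 K x
  have hzW : z ∈ W := span_unit_le175 K c hN hz
  have hd0 : ∀ w : InfinitePlace K, w ≠ w₀ → (x - z) w = 0 := by
    intro w hw
    show x w - z w = 0
    rw [hzw w hw, sub_self]
  have hd1 := eq_single_of_agree175 K hd0
  have h7 : (Pi.single (w₀ : InfinitePlace K) ((x - z) w₀) : InfinitePlace K → ℝ)
      = ((x - z) w₀) • (Pi.single (w₀ : InfinitePlace K) (1 : ℝ) : InfinitePlace K → ℝ) := by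
    funext w
    by_cases hw : w = w₀
    · subst hw
      simp
    · simp [Pi.single_eq_of_ne hw]
  have h8 : x - z ∈ W := by
    rw [hd1, h7]
    exact Submodule.smul_mem _ _ hsingle
  have : x = (x - z) + z := by abel
  rw [this]
  exact Submodule.add_mem _ h8 hzW

theorem card_option_rank175 :
    Fintype.card (Option (Fin (rank K))) = finrank ℝ (InfinitePlace K → ℝ) := by
  rw [Fintype.card_option, Fintype.card_fin, Module.finrank_fintype_fun_eq_card, rank]
  have : 0 < Fintype.card (InfinitePlace K) := Fintype.card_pos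
  omega

/-- **THE PERIOD BASIS** of `V = (InfinitePlace K → ℝ)`. -/
def periodBasis175 {c : ℝ} (hc : c ≠ 0) {N : ℕ} (hN : 0 < N) :
    Basis (Option (Fin (rank K))) ℝ (InfinitePlace K → ℝ) :=
  basisOfTopLeSpanOfCardEqFinrank (periodVec175 K c N) (span_periodVec175 K hc hN).ge
    (card_option_rank175 K)

theorem periodBasis175_apply {c : ℝ} (hc : c ≠ 0) {N : ℕ} (hN : 0 < N)
    (i : Option (Fin (rank K))) : periodBasis175 K hc hN i = periodVec175 K c N i := by
  unfold periodBasis175
  rw [coe_basisOfTopLeSpanOfCardEqFinrank]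

end Fermat.Agent.LT.T7.H175

end
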