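import Mathlib
import Fermat.Agent.LT.H556.A0
import Fermat.Agent.LT.T1.Spec
import Fermat.Agent.LT.T5.Spec
import Fermat.Agent.LT.T2.H627.Adelic
import Fermat.Agent.LT.T7.H175.PeriodBasis

/-!
# Row LT, tower T7, asset ARCH-PROJ (helper175), part 3: the periods of automorphic functions

OFF-MAIN.  Vocabulary: A0, `T5/Spec.lean` v4; adelic kit of helper627 (`T2/H627/Adelic.lean`).

`aInf175 x` is the positive scalar matrix `(e^{x_w})_w` at the infinite places (`1` at the finite
places).  An automorphic function of level `𝔫` and trivial `K_∞`-type in the frame of T5 (right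
invariant under the ray generator `r` only) is right invariant under `aInf175 x` for `x` in the
lattice spanned by

* the logarithm of the ray generator, `(log t, …, log t)`;
* the logarithmic vectors `(log |ε|_w)_w` of the units `ε ≡ 1 mod 𝔫`
  (`ε ∈ GL₂(K)` is central, its finite part lies in `U(𝔫)`, the phases of its archimedean
  components lie in `K_∞`).

By Dirichlet's unit theorem (`PeriodBasis.lean`) this lattice contains a basis of
`V = (InfinitePlace K → ℝ)`: `archPeriodBasis175`.
-/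

set_option autoImplicit false
set_option linter.unusedSectionVars false
set_option linter.style.haveILetI false

open IsDedekindDomain NumberField MeasureTheory Module
open Fermat.Agent.LT.H556.A0 Fermat.Agent.LT Fermat.Agent.LT.T2.H627
open scoped Classical

noncomputable section

namespace Fermat.Agent.LT.T7.H175

variable {K : Type} [Field K] [NumberField K]

/-! ## 1. Extensionality and components -/

theorem G_ext175 {g h : G K} (h1 : ∀ w : InfinitePlace K, infComp w g = infComp w h)
    (h2 : ∀ v : HeightOneSpectrum (𝓞 K), finComp v g = finComp v h) : g = h := by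
  apply Units.ext
  refine Matrix.ext fun i j => ?_
  refine adl_ext627 (fun w => ?_) (fun v => ?_)
  · exact (InfinitePlace.Completion.extensionEmbedding w).injective
      (congrFun (congrFun (h1 w) i) j)
  · exact congrFun (congrFun (h2 v) i) j

theorem infComp_one175 (w : InfinitePlace K) : infComp w (1 : G K) = 1 := by
  refine Matrix.ext fun i j => ?_
  show InfinitePlace.Completion.extensionEmbedding w
    (((1 : Matrix (Fin 2) (Fin 2) (Adl K)) i j).1 w) = _
  by_cases h : i = j
  · subst h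
    simp only [Matrix.one_apply_eq]
    exact map_one _
  · simp only [Matrix.one_apply_ne h]
    exact map_zero _

theorem infComp_of_trivAtInf175 {w : InfinitePlace K} {g : G K} (hg : TrivAtInf w g) :
    infComp w g = 1 := by
  refine Matrix.ext fun i j => ?_
  show InfinitePlace.Completion.extensionEmbedding w
    (((g : Matrix (Fin 2) (Fin 2) (Adl K)) i j).1 w) = _
  rw [hg i j]
  by_cases h : i = j
  · subst h
    simp only [Matrix.one_apply_eq]
    exact map_one _
  · simp only [Matrix.one_apply_ne h]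
    exact map_zero _

/-! ## 2. The positive scalars -/

/-- The positive scalar matrix with logarithmic vector `x`. -/
def aInf175 (x : InfinitePlace K → ℝ) : G K := scal627 (expIdele627 x)

theorem aInf175_add (x y : InfinitePlace K → ℝ) :
    aInf175 (x + y) = aInf175 x * aInf175 y := by
  unfold aInf175
  rw [expIdele627_add, map_mul]

theorem aInf175_zero : aInf175 (0 : InfinitePlace K → ℝ) = 1 := by
  unfold aInf175
  rw [expIdele627_zero, map_one]

theorem aInf175_comm (x : InfinitePlace K → ℝ) (g : G K) : aInf175 x * g = g * aInf175 x :=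
  scal627_comm _ g

theorem infComp_aInf175 (w : InfinitePlace K) (x : InfinitePlace K → ℝ) :
    infComp w (aInf175 x) = Matrix.diagonal (fun _ => ((Real.exp (x w) : ℝ) : ℂ)) := by
  unfold aInf175
  rw [infComp_scal627]
  congr 1
  funext _
  show InfinitePlace.Completion.extensionEmbedding w (eR627 w (Real.exp (x w))) = _
  rw [ext_eR627]

theorem finComp_aInf175 (v : HeightOneSpectrum (𝓞 K)) (x : InfinitePlace K → ℝ) :
    finComp v (aInf175 x) = 1 := by
  unfold aInf175
  rw [finComp_scal627]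
  show Matrix.diagonal (fun _ : Fin 2 => (1 : FiniteAdeleRing (𝓞 K) K) v) = 1
  rw [← Matrix.diagonal_one]
  rfl

theorem continuous_infAdele175 :
    Continuous (fun s : InfinitePlace K → ℝ => infAdele627 (K := K) s) := by
  refine Continuous.prodMk ?_ continuous_const
  exact continuous_pi fun w => (isometry_eR627 w).continuous.comp (continuous_apply w)

theorem continuous_expIdele175 :
    Continuous (fun x : InfinitePlace K → ℝ => expIdele627 (K := K) x) := by
  rw [Units.continuous_iff]
  constructor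
  · have h : Continuous fun x : InfinitePlace K → ℝ => fun w => Real.exp (x w) :=
      continuous_pi fun w => Real.continuous_exp.comp (continuous_apply w)
    exact continuous_infAdele175.comp h
  · have h : Continuous fun x : InfinitePlace K → ℝ => fun w => (Real.exp (x w))⁻¹ :=
      continuous_pi fun w =>
        (Real.continuous_exp.comp (continuous_apply w)).inv₀ (fun x => (Real.exp_pos _).ne')
    exact continuous_infAdele175.comp h

theorem continuous_aInf175 : Continuous (aInf175 (K := K)) :=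
  continuous_scal627.comp continuous_expIdele175

/-- A positive scalar at one place is `aInf175` of a vector supported at that place. -/
theorem eq_aInf175_of_isArchPosScalar {w : InfinitePlace K} {z : G K}
    (hz : IsArchPosScalar w z) : ∃ t : ℝ, z = aInf175 (Pi.single w t) := by
  obtain ⟨⟨hinf, hfin⟩, r, hr, hcomp⟩ := hz
  refine ⟨Real.log r, G_ext175 (fun w' => ?_) (fun v => ?_)⟩
  · rw [infComp_aInf175]
    by_cases hw : w' = w
    · subst hw
      rw [hcomp, Pi.single_eq_same, Real.exp_log hr]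
    · rw [infComp_of_trivAtInf175 (hinf w' hw), Pi.single_eq_of_ne hw, Real.exp_zero]
      rw [Complex.ofReal_one, Matrix.diagonal_one]
  · rw [finComp_aInf175]
    exact hfin v

/-- Invariance under the positive scalars at every place gives invariance under `aInf175`. -/
theorem inv_aInf175 {ψ : G K → ℂ}
    (h : ∀ (w : InfinitePlace K) (z : G K), IsArchPosScalar w z → ∀ g : G K, ψ (g * z) = ψ g)
    (x : InfinitePlace K → ℝ) (g : G K) : ψ (g * aInf175 x) = ψ g := by
  have key : ∀ (S : Finset (InfinitePlace K)) (g : G K),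
      ψ (g * scal627 (∏ w ∈ S, expIdele627 (Pi.single w (x w)))) = ψ g := by
    intro S
    induction S using Finset.induction_on with
    | empty => intro g; simp
    | insert a S ha ih =>
      intro g
      rw [Finset.prod_insert ha, map_mul, ← mul_assoc, ih]
      exact h a _ (isArchPosScalar_zloc627 a (x a)) g
  have hx : x = ∑ w : InfinitePlace K, Pi.single w (x w) :=
    (Finset.univ_sum_single x).symm
  unfold aInf175
  conv_lhs => rw [hx, expIdele627_sum]
  exact key _ g

/-! ## 3. The period of the ray -/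

theorem rayGen_eq_aInf175 {r : G K} (hr : T5.IsRayGen r) :
    ∃ c : ℝ, c ≠ 0 ∧ r = aInf175 (fun _ => c) := by
  obtain ⟨hfin, t, ht, hpow, hinf⟩ := hr
  refine ⟨Real.log t, ?_, G_ext175 (fun w => ?_) (fun v => ?_)⟩
  · intro h0
    have h1 : t = 1 := by
      have := Real.exp_log ht
      rw [h0, Real.exp_zero] at this
      exact this.symm
    rw [h1, one_pow] at hpow
    norm_num at hpow
  · rw [infComp_aInf175, hinf w, Real.exp_log ht]
  · rw [finComp_aInf175]
    exact hfin v

/-! ## 4. Ideles with prescribed parts -/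

/-- The idele with components `c w` at the infinite places and `1` at the finite places. -/
def infUnit175 : ((w : InfinitePlace K) → (w.Completion)ˣ) →* (Adl K)ˣ where
  toFun c :=
    { val := ((fun w => ((c w : (w.Completion)ˣ) : w.Completion)),
        (1 : FiniteAdeleRing (𝓞 K) K))
      inv := ((fun w => (((c w)⁻¹ : (w.Completion)ˣ) : w.Completion)),
        (1 : FiniteAdeleRing (𝓞 K) K))
      val_inv := by
        refine Prod.ext (funext fun w => ?_) (mul_one _)
        exact Units.mul_inv (c w)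
      inv_val := by
        refine Prod.ext (funext fun w => ?_) (mul_one _)
        exact Units.inv_mul (c w) }
  map_one' := by
    apply Units.ext
    exact Prod.ext (funext fun w => rfl) rfl
  map_mul' c d := by
    apply Units.ext
    refine Prod.ext (funext fun w => rfl) ?_
    exact (mul_one (1 : FiniteAdeleRing (𝓞 K) K)).symm

theorem infUnit175_fst (c : (w : InfinitePlace K) → (w.Completion)ˣ) (w : InfinitePlace K) :
    ((infUnit175 c : (Adl K)ˣ) : Adl K).1 w = (c w : w.Completion) := rfl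

theorem infUnit175_snd (c : (w : InfinitePlace K) → (w.Completion)ˣ) :
    ((infUnit175 c : (Adl K)ˣ) : Adl K).2 = 1 := rfl

/-- The idele with finite part `b` and `1` at the infinite places. -/
def finUnit175 : (FiniteAdeleRing (𝓞 K) K)ˣ →* (Adl K)ˣ where
  toFun b :=
    { val := ((1 : InfiniteAdeleRing K), (b : FiniteAdeleRing (𝓞 K) K))
      inv := ((1 : InfiniteAdeleRing K), ((b⁻¹ : (FiniteAdeleRing (𝓞 K) K)ˣ) :
        FiniteAdeleRing (𝓞 K) K))
      val_inv := Prod.ext (mul_one _) (Units.mul_inv b)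
      inv_val := Prod.ext (mul_one _) (Units.inv_mul b) }
  map_one' := by
    apply Units.ext
    exact Prod.ext rfl rfl
  map_mul' c d := by
    apply Units.ext
    exact Prod.ext (mul_one (1 : InfiniteAdeleRing K)).symm rfl

theorem finUnit175_fst (b : (FiniteAdeleRing (𝓞 K) K)ˣ) :
    ((finUnit175 b : (Adl K)ˣ) : Adl K).1 = 1 := rfl

theorem finUnit175_snd (b : (FiniteAdeleRing (𝓞 K) K)ˣ) :
    ((finUnit175 b : (Adl K)ˣ) : Adl K).2 = (b : FiniteAdeleRing (𝓞 K) K) := rfl

/-! ## 5. The decomposition of a unit of `𝓞 K` -/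

/-- A unit of `𝓞 K` as an element of `Kˣ`. -/
def unitK175 : (𝓞 K)ˣ →* Kˣ := Units.map (algebraMap (𝓞 K) K).toMonoidHom

theorem unitK175_val (ε : (𝓞 K)ˣ) : ((unitK175 ε : Kˣ) : K) = ((ε : 𝓞 K) : K) := rfl

theorem place_pos175 (ε : (𝓞 K)ˣ) (w : InfinitePlace K) : 0 < w ((ε : 𝓞 K) : K) :=
  NumberField.Units.pos_at_place ε w

theorem eR627_ne_zero175 (w : InfinitePlace K) {s : ℝ} (hs : s ≠ 0) : eR627 w s ≠ 0 := by
  intro h
  have := norm_eR627 w s
  rw [h, norm_zero] at this
  exact hs (abs_eq_zero.mp this.symm)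

/-- The phase of the unit `ε` at the infinite place `w`. -/
def phase175 (ε : (𝓞 K)ˣ) (w : InfinitePlace K) : (w.Completion)ˣ :=
  Units.map (algebraMap K w.Completion).toMonoidHom (unitK175 ε)
    * (Units.mk0 (eR627 w (w ((ε : 𝓞 K) : K))) (eR627_ne_zero175 w (place_pos175 ε w).ne'))⁻¹

/-- The finite part of the principal idele of the unit `ε`. -/
def finPart175 : (𝓞 K)ˣ →* (FiniteAdeleRing (𝓞 K) K)ˣ :=
  (Units.map (algebraMap K (FiniteAdeleRing (𝓞 K) K)).toMonoidHom).comp unitK175

theorem finPart175_val (ε : (𝓞 K)ˣ) :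
    ((finPart175 ε : (FiniteAdeleRing (𝓞 K) K)ˣ) : FiniteAdeleRing (𝓞 K) K)
      = algebraMap K (FiniteAdeleRing (𝓞 K) K) ((ε : 𝓞 K) : K) := rfl

theorem expIdele_unitLog175 (ε : (𝓞 K)ˣ) (w : InfinitePlace K) :
    ((expIdele627 (unitLog175 K ε) : (Adl K)ˣ) : Adl K).1 w = eR627 w (w ((ε : 𝓞 K) : K)) := by
  show eR627 w (Real.exp (unitLog175 K ε w)) = _
  unfold unitLog175
  rw [Real.exp_log (place_pos175 ε w)]

/-- **The principal idele of a unit** is the product of its absolute values, of its phases and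
of its finite part. -/
theorem ratUnit_unit175 (ε : (𝓞 K)ˣ) :
    T1.ratUnit K (unitK175 ε)
      = expIdele627 (unitLog175 K ε) * infUnit175 (phase175 ε) * finUnit175 (finPart175 ε) := by
  apply Units.ext
  rw [Units.val_mul, Units.val_mul]
  refine Prod.ext (funext fun w => ?_) ?_
  · show (((ε : 𝓞 K) : K) : w.Completion)
      = ((expIdele627 (unitLog175 K ε) : (Adl K)ˣ) : Adl K).1 w
        * ((infUnit175 (phase175 ε) : (Adl K)ˣ) : Adl K).1 w
        * ((finUnit175 (finPart175 ε) : (Adl K)ˣ) : Adl K).1 w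
    rw [expIdele_unitLog175, infUnit175_fst, finUnit175_fst]
    show _ = eR627 w (w ((ε : 𝓞 K) : K))
      * ((((ε : 𝓞 K) : K) : w.Completion) * (eR627 w (w ((ε : 𝓞 K) : K)))⁻¹) * 1
    have hne := eR627_ne_zero175 w (place_pos175 ε w).ne'
    field_simp
  · show algebraMap K (FiniteAdeleRing (𝓞 K) K) ((ε : 𝓞 K) : K)
      = (1 : FiniteAdeleRing (𝓞 K) K) * 1 * algebraMap K (FiniteAdeleRing (𝓞 K) K) ((ε : 𝓞 K) : K)
    rw [mul_one, one_mul]

/-! ## 6. The phases lie in `K_∞`, the finite part lies in `U(𝔫)` -/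

theorem norm_phase175 (ε : (𝓞 K)ˣ) (w : InfinitePlace K) :
    ‖InfinitePlace.Completion.extensionEmbedding w ((phase175 ε w : (w.Completion)ˣ) :
      w.Completion)‖ = 1 := by
  rw [(InfinitePlace.Completion.isometry_extensionEmbedding w).norm_map_of_map_zero (map_zero _)]
  show ‖((((ε : 𝓞 K) : K) : w.Completion)) * (eR627 w (w ((ε : 𝓞 K) : K)))⁻¹‖ = 1
  rw [norm_mul, norm_inv, norm_eR627]
  have h1 : ‖((((ε : 𝓞 K) : K)) : w.Completion)‖ = w ((ε : 𝓞 K) : K) :=
    InfinitePlace.Completion.norm_coe w _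
  rw [h1, abs_of_pos (place_pos175 ε w)]
  exact mul_inv_cancel₀ (place_pos175 ε w).ne'

theorem isArchCompact_phase175 (ε : (𝓞 K)ˣ) (w : InfinitePlace K) :
    IsArchCompact w (scal627 (infUnit175 (Pi.mulSingle w (phase175 ε w)))) := by
  set z : ℂ := InfinitePlace.Completion.extensionEmbedding w
    ((phase175 ε w : (w.Completion)ˣ) : w.Completion) with hz
  have hnorm : ‖z‖ = 1 := norm_phase175 ε w
  have hcomp : infComp w (scal627 (infUnit175 (Pi.mulSingle w (phase175 ε w))))
      = Matrix.diagonal (fun _ => z) := by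
    rw [infComp_scal627]
    congr 1
    funext _
    show InfinitePlace.Completion.extensionEmbedding w
      (((Pi.mulSingle w (phase175 ε w) : (w' : InfinitePlace K) → (w'.Completion)ˣ) w :
        (w.Completion)ˣ) : w.Completion) = z
    rw [Pi.mulSingle_eq_same]
  refine ⟨⟨fun w' hw' i j => ?_, fun v => ?_⟩, ?_, ?_⟩
  · show (Matrix.diagonal (fun _ : Fin 2 =>
        ((infUnit175 (Pi.mulSingle w (phase175 ε w)) : (Adl K)ˣ) : Adl K)) i j).1 w' = _
    by_cases h : i = j
    · subst h
      simp only [Matrix.diagonal_apply_eq, Matrix.one_apply_eq]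
      show (((Pi.mulSingle w (phase175 ε w) : (w' : InfinitePlace K) → (w'.Completion)ˣ) w' :
        (w'.Completion)ˣ) : w'.Completion) = 1
      rw [Pi.mulSingle_eq_of_ne hw']
      rfl
    · simp only [Matrix.diagonal_apply_ne _ h, Matrix.one_apply_ne h]
      rfl
  · show finComp v (scal627 _) = 1
    rw [finComp_scal627]
    show Matrix.diagonal (fun _ : Fin 2 => (1 : FiniteAdeleRing (𝓞 K) K) v) = 1
    rw [← Matrix.diagonal_one]
    rfl
  · rw [hcomp, Matrix.diagonal_conjTranspose, Matrix.diagonal_mul_diagonal,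
      ← Matrix.diagonal_one]
    congr 1
    funext _
    show z * star z = 1
    rw [Complex.star_def, Complex.mul_conj, Complex.normSq_eq_norm_sq, hnorm]
    norm_num
  · intro hw
    rw [hcomp, Matrix.det_diagonal, Fin.prod_univ_two]
    have hreal : z = ((InfinitePlace.Completion.extensionEmbeddingOfIsReal hw
        ((phase175 ε w : (w.Completion)ˣ) : w.Completion) : ℝ) : ℂ) :=
      (InfinitePlace.Completion.extensionEmbeddingOfIsReal_apply hw _).symm
    set s : ℝ := InfinitePlace.Completion.extensionEmbeddingOfIsReal hw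
        ((phase175 ε w : (w.Completion)ˣ) : w.Completion) with hs
    rw [hreal] at hnorm ⊢
    rw [Complex.norm_real, Real.norm_eq_abs] at hnorm
    have h2 : s * s = 1 := by
      have := abs_mul_abs_self s
      rw [hnorm] at this
      linarith
    rw [← Complex.ofReal_mul, h2, Complex.ofReal_one]

theorem mem_idealClosure175 (𝔫 : Ideal (𝓞 K)) (v : HeightOneSpectrum (𝓞 K)) {x : 𝓞 K}
    (hx : x ∈ 𝔫) :
    algebraMap K (v.adicCompletion K) (algebraMap (𝓞 K) K x) ∈ idealClosure 𝔫 v :=
  subset_closure ⟨x, hx, rfl⟩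

theorem finComp_finUnit175 (ε : (𝓞 K)ˣ) (v : HeightOneSpectrum (𝓞 K)) :
    finComp v (scal627 (finUnit175 (finPart175 ε)))
      = Matrix.diagonal (fun _ => algebraMap K (v.adicCompletion K) ((ε : 𝓞 K) : K)) := by
  rw [finComp_scal627]
  rfl

theorem inLevelGroup_finUnit175 {𝔫 : Ideal (𝓞 K)} {ε : (𝓞 K)ˣ} (hε : (ε : 𝓞 K) - 1 ∈ 𝔫) :
    InLevelGroup 𝔫 (scal627 (finUnit175 (finPart175 ε))) := by
  have hε' : ((ε⁻¹ : (𝓞 K)ˣ) : 𝓞 K) - 1 ∈ 𝔫 := by
    have h1 : ((ε⁻¹ : (𝓞 K)ˣ) : 𝓞 K) - 1 = -((ε⁻¹ : (𝓞 K)ˣ) : 𝓞 K) * ((ε : 𝓞 K) - 1) := by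
      have := Units.inv_mul ε
      linear_combination this
    rw [h1]
    exact Ideal.mul_mem_left _ _ hε
  have key : ∀ (η : (𝓞 K)ˣ), (η : 𝓞 K) - 1 ∈ 𝔫 → ∀ (v : HeightOneSpectrum (𝓞 K)) (i j : Fin 2),
      (finComp v (scal627 (finUnit175 (finPart175 η))) - 1) i j ∈ idealClosure 𝔫 v := by
    intro η hη v i j
    rw [finComp_finUnit175]
    by_cases h : i = j
    · subst h
      simp only [Matrix.sub_apply, Matrix.diagonal_apply_eq, Matrix.one_apply_eq]
      have := mem_idealClosure175 𝔫 v hη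
      rw [map_sub, map_sub, map_one, map_one] at this
      exact this
    · simp only [Matrix.sub_apply, Matrix.diagonal_apply_ne _ h, Matrix.one_apply_ne h, sub_zero]
      have := mem_idealClosure175 𝔫 v (Ideal.zero_mem 𝔫)
      rw [map_zero, map_zero] at this
      exact this
  refine ⟨fun w i j => ?_, fun v i j => ⟨key ε hε v i j, ?_⟩⟩
  · show (Matrix.diagonal (fun _ : Fin 2 =>
        ((finUnit175 (finPart175 ε) : (Adl K)ˣ) : Adl K)) i j).1 w = _
    by_cases h : i = j
    · subst h
      simp only [Matrix.diagonal_apply_eq, Matrix.one_apply_eq]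
      rfl
    · simp only [Matrix.diagonal_apply_ne _ h, Matrix.one_apply_ne h]
      rfl
  · have hinv : (scal627 (finUnit175 (finPart175 ε)))⁻¹
        = scal627 (finUnit175 (finPart175 ε⁻¹)) := by
      rw [map_inv, map_inv, map_inv]
    rw [hinv]
    exact key ε⁻¹ hε' v i j

/-! ## 7. The period of a unit `≡ 1 mod 𝔫` -/

theorem ratG_unit175 (ε : (𝓞 K)ˣ) :
    T5.ratG (ratScal627 (unitK175 ε))
      = aInf175 (unitLog175 K ε) * scal627 (infUnit175 (phase175 ε))
        * scal627 (finUnit175 (finPart175 ε)) := by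
  have h := ratG_ratScal627 (unitK175 ε)
  rw [ratUnit_unit175, map_mul, map_mul] at h
  exact h

/-- Invariance under the phases. -/
theorem inv_phase175 {𝔫 : Ideal (𝓞 K)} {r : G K} {ψ : G K → ℂ}
    (hψ : T5.IsAutomorphicFn 𝔫 T5.trivType r ψ) (ε : (𝓞 K)ˣ) (g : G K) :
    ψ (g * scal627 (infUnit175 (phase175 ε))) = ψ g := by
  have key : ∀ (S : Finset (InfinitePlace K)) (g : G K),
      ψ (g * scal627 (infUnit175 (∏ w ∈ S, Pi.mulSingle w (phase175 ε w)))) = ψ g := by
    intro S
    induction S using Finset.induction_on with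
    | empty => intro g; simp
    | insert a S ha ih =>
      intro g
      rw [Finset.prod_insert ha, map_mul, map_mul, scal627_comm,
        ← mul_assoc, hψ.arch_compact a _ (isArchCompact_phase175 ε a), ih]
      simp [T5.trivType]
  have hx : phase175 ε = ∏ w : InfinitePlace K, Pi.mulSingle w (phase175 ε w) :=
    (Finset.univ_prod_mulSingle (phase175 ε)).symm
  conv_lhs => rw [hx]
  exact key _ g

/-- **THE PERIOD OF A UNIT.** -/
theorem inv_unit175 {𝔫 : Ideal (𝓞 K)} {r : G K} {ψ : G K → ℂ}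
    (hψ : T5.IsAutomorphicFn 𝔫 T5.trivType r ψ) {ε : (𝓞 K)ˣ} (hε : (ε : 𝓞 K) - 1 ∈ 𝔫)
    (g : G K) : ψ (g * aInf175 (unitLog175 K ε)) = ψ g := by
  have h1 : ψ (T5.ratG (ratScal627 (unitK175 ε)) * g) = ψ g := hψ.left_inv _ g
  have h2 : T5.ratG (ratScal627 (unitK175 ε)) * g
      = g * aInf175 (unitLog175 K ε) * scal627 (infUnit175 (phase175 ε))
        * scal627 (finUnit175 (finPart175 ε)) := by
    have hc : T5.ratG (ratScal627 (unitK175 ε)) * g
        = g * T5.ratG (ratScal627 (unitK175 ε)) := by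
      rw [show T5.ratG (ratScal627 (unitK175 ε)) = scal627 (T1.ratUnit K (unitK175 ε)) from
        ratG_ratScal627 _]
      exact scal627_comm _ g
    rw [hc, ratG_unit175, ← mul_assoc, ← mul_assoc]
  rw [h2, hψ.level_inv _ (inLevelGroup_finUnit175 hε), inv_phase175 hψ] at h1
  exact h1

/-! ## 8. The period basis of a level and a ray generator -/

theorem exists_pow_congr175 {𝔫 : Ideal (𝓞 K)} (h𝔫 : 𝔫 ≠ ⊥) :
    ∃ N : ℕ, 0 < N ∧ ∀ ε : (𝓞 K)ˣ, ((ε ^ N : (𝓞 K)ˣ) : 𝓞 K) - 1 ∈ 𝔫 := by
  haveI : Finite (𝓞 K ⧸ 𝔫) := Ideal.finiteQuotientOfFreeOfNeBot 𝔫 h𝔫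
  refine ⟨Nat.card (𝓞 K ⧸ 𝔫)ˣ, Nat.card_pos, fun ε => ?_⟩
  have h1 : (Units.map (Ideal.Quotient.mk 𝔫).toMonoidHom ε) ^ Nat.card (𝓞 K ⧸ 𝔫)ˣ = 1 :=
    pow_card_eq_one'
  have h2 : Ideal.Quotient.mk 𝔫 ((ε ^ Nat.card (𝓞 K ⧸ 𝔫)ˣ : (𝓞 K)ˣ) : 𝓞 K) = 1 := by
    have h3 : ((Units.map (Ideal.Quotient.mk 𝔫).toMonoidHom ε ^ Nat.card (𝓞 K ⧸ 𝔫)ˣ :
        (𝓞 K ⧸ 𝔫)ˣ) : 𝓞 K ⧸ 𝔫) = 1 := by rw [h1]; rfl
    rw [Units.val_pow_eq_pow_val] at h3
    rw [Units.val_pow_eq_pow_val, map_pow]
    exact h3
  rw [← Ideal.Quotient.eq_zero_iff_mem, map_sub, h2, map_one, sub_self]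

theorem unitLog175_pow (ε : (𝓞 K)ˣ) (N : ℕ) :
    unitLog175 K (ε ^ N) = (N : ℝ) • unitLog175 K ε := by
  funext w
  show Real.log (w (((ε ^ N : (𝓞 K)ˣ) : 𝓞 K) : K)) = (N : ℝ) * Real.log (w ((ε : 𝓞 K) : K))
  have h1 : (((ε ^ N : (𝓞 K)ˣ) : 𝓞 K) : K) = (((ε : 𝓞 K) : K)) ^ N := by
    rw [Units.val_pow_eq_pow_val]
    rfl
  rw [h1, map_pow, Real.log_pow]

/-- **THE PERIOD BASIS** of the automorphic functions of level `𝔫` and trivial type in the frame
of T5 with ray generator `r`. -/
theorem exists_archPeriodBasis175 {𝔫 : Ideal (𝓞 K)} (h𝔫 : 𝔫 ≠ ⊥) {r : G K}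
    (hr : T5.IsRayGen r) :
    ∃ b : Basis (Option (Fin (NumberField.Units.rank K))) ℝ (InfinitePlace K → ℝ),
      ∀ (i : Option (Fin (NumberField.Units.rank K))) (ψ : G K → ℂ),
        T5.IsAutomorphicFn 𝔫 T5.trivType r ψ → ∀ g : G K, ψ (g * aInf175 (b i)) = ψ g := by
  obtain ⟨c, hc, hrc⟩ := rayGen_eq_aInf175 hr
  obtain ⟨N, hN, hcong⟩ := exists_pow_congr175 h𝔫
  refine ⟨periodBasis175 K hc hN, fun i ψ hψ g => ?_⟩
  rw [periodBasis175_apply]
  cases i with
  | none =>
    show ψ (g * aInf175 (fun _ => c)) = ψ g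
    rw [← hrc]
    exact hψ.ray g
  | some j =>
    show ψ (g * aInf175 ((N : ℝ) • unitLog175 K (NumberField.Units.fundSystem K j))) = ψ g
    rw [← unitLog175_pow]
    exact inv_unit175 hψ (hcong _) g

end Fermat.Agent.LT.T7.H175

end
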