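import Mathlib
import Fermat.Agent.LT.H556.A0
import Fermat.Agent.LT.T1.Spec
import Fermat.Agent.LT.T5.Spec
import Fermat.Agent.LT.T7.H40.ProjSpec
import Fermat.Agent.LT.T7.H40.ArchProjSpec
import Fermat.Agent.LT.T7.H175.PeriodBasis
import Fermat.Agent.LT.T7.H175.ArchPeriod

/-!
# Row LT, tower T7, leaf `ArchProjC` (cut of helper40), the ADELIC leaves -- PROOFS (helper175)

OFF-MAIN.  The frozen Props of `T7/H40/ArchProjSpec.lean` (sha 34d7f842), proved VERBATIM from the
asset ARCH-PERIOD (`T7/H175/PeriodBasis.lean`, `T7/H175/ArchPeriod.lean`):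

* `posFamilyC175    : H40.PosFamilyC K`
* `posScalarC175    : H40.PosScalarC K`
* `unitPeriodsC175  : H40.UnitPeriodsC K`
* `rayLogC175       : H40.RayLogC K`
* `unitPeriodC175   : H40.UnitPeriodC K`
* `periodFamilyC175 : H40.PeriodFamilyC K`   (the node, by `periodFamilyC_of40`)
-/

set_option autoImplicit false
set_option linter.unusedSectionVars false
set_option linter.style.haveILetI false

open IsDedekindDomain NumberField MeasureTheory Module
open Fermat.Agent.LT.H556.A0 Fermat.Agent.LT Fermat.Agent.LT.T2.H627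
open scoped Classical

noncomputable section

namespace Fermat.Agent.LT.T7.H175

variable {K : Type} [Field K] [NumberField K]

/-- The family of positive scalars of the spec is `aInf175`. -/
theorem isPosFamily_aInf175 : H40.IsPosFamily40 (aInf175 (K := K)) where
  cont := continuous_aInf175
  mul := aInf175_add
  central := aInf175_comm
  fin_triv := fun t v => finComp_aInf175 v t
  inf_comp := fun t w => infComp_aInf175 w t

/-- A family of positive scalars is `aInf175` (extensionality in the local components). -/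
theorem posFamily_eq_aInf175 {Z : (InfinitePlace K → ℝ) → G K} (hZ : H40.IsPosFamily40 Z) :
    Z = aInf175 := by
  funext t
  refine G_ext175 (fun w => ?_) (fun v => ?_)
  · rw [hZ.inf_comp t w, infComp_aInf175]
  · rw [finComp_aInf175]
    exact hZ.fin_triv t v

/-- **LEAF POS-FAMILY.** -/
theorem posFamilyC175 (K : Type) [Field K] [NumberField K] : H40.PosFamilyC K :=
  ⟨aInf175, isPosFamily_aInf175⟩

/-- **LEAF POS-SCALAR.** -/
theorem posScalarC175 (K : Type) [Field K] [NumberField K] : H40.PosScalarC K := by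
  intro Z hZ
  rw [posFamily_eq_aInf175 hZ]
  refine ⟨fun w z hz => ?_, fun χ hχ t g => inv_aInf175 hχ t g⟩
  obtain ⟨t, ht⟩ := eq_aInf175_of_isArchPosScalar hz
  exact ⟨_, ht⟩

/-- **LEAF RAY-LOG.** -/
theorem rayLogC175 (K : Type) [Field K] [NumberField K] : H40.RayLogC K := by
  intro Z hZ r hr
  rw [posFamily_eq_aInf175 hZ]
  obtain ⟨c, hc, hrc⟩ := rayGen_eq_aInf175 hr
  exact ⟨c, hc, hrc.symm⟩

/-- **LEAF UNIT-PERIOD.** -/
theorem unitPeriodC175 (K : Type) [Field K] [NumberField K] : H40.UnitPeriodC K := by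
  intro Z hZ 𝔑 r ψ hψ ε hε g
  rw [posFamily_eq_aInf175 hZ]
  exact inv_unit175 hψ hε g

/-- **LEAF UNIT-PERIODS** (Dirichlet's unit theorem). -/
theorem unitPeriodsC175 (K : Type) [Field K] [NumberField K] : H40.UnitPeriodsC K := by
  intro 𝔑 h𝔑 c hc
  obtain ⟨N, hN, hcong⟩ := exists_pow_congr175 h𝔑
  have hcard : Fintype.card (InfinitePlace K)
      = Fintype.card (Option (Fin (NumberField.Units.rank K))) := by
    rw [card_option_rank175 K, Module.finrank_fintype_fun_eq_card]
  let e : InfinitePlace K ≃ Option (Fin (NumberField.Units.rank K)) :=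
    Fintype.equivOfCardEq hcard
  let B : Basis (InfinitePlace K) ℝ (InfinitePlace K → ℝ) :=
    (periodBasis175 K hc hN).reindex e.symm
  refine ⟨B, B.linearIndependent, fun i => ?_⟩
  have hB : B i = periodVec175 K c N (e i) := by
    show ((periodBasis175 K hc hN).reindex e.symm) i = _
    rw [Basis.reindex_apply, Equiv.symm_symm, periodBasis175_apply]
  rw [hB]
  cases h : e i with
  | none => exact Or.inl rfl
  | some j =>
    refine Or.inr ⟨(NumberField.Units.fundSystem K j) ^ N, hcong _, ?_⟩
    show (N : ℝ) • unitLog175 K (NumberField.Units.fundSystem K j) = _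
    rw [← unitLog175_pow]
    rfl

/-- **NODE PERIOD-FAMILY.** -/
theorem periodFamilyC175 (K : Type) [Field K] [NumberField K] : H40.PeriodFamilyC K :=
  H40.periodFamilyC_of40 (posFamilyC175 K) (posScalarC175 K) (unitPeriodsC175 K)
    (rayLogC175 K) (unitPeriodC175 K)

end Fermat.Agent.LT.T7.H175

end
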